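import Mathlib
import Fermat.Prelude.Def_GroupCohomology_ContinuousUnramified
import Fermat.Agent.GC.Prof.Basic
import Fermat.Agent.S05.Inertia

/-!
# GATE-C / C0 (helper59): the level system of `G_ℚ` cut out by a finite set `S` of primes

`levelS S : LevelSystem G_ℚ` has as members the fixing subgroups of the finite extensions of `ℚ`
inside `ℚ̄` that are unramified outside `S` (the prelude's `IntermediateField.IsUnramifiedOutside`).
The prelude's `IsLevelConstantS₁/₂ S` are level-constancy with respect to this system.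
-/

set_option autoImplicit false

open scoped Pointwise

namespace Fermat.Agent.GC.C0

open Fermat.Agent.GC.Prof

local instance isAlgebraicQbar_c0 : Algebra.IsAlgebraic ℚ (AlgebraicClosure ℚ) :=
  AlgebraicClosure.isAlgebraic ℚ
local instance isAlgClosureQbar_c0 : IsAlgClosure ℚ (AlgebraicClosure ℚ) :=
  ⟨inferInstance, inferInstance⟩
local instance normalQbar_c0 : Normal ℚ (AlgebraicClosure ℚ) :=
  IsAlgClosure.normal ℚ (AlgebraicClosure ℚ)

/-- `ℚ̄`. -/
noncomputable abbrev Qbar := AlgebraicClosure ℚ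
/-- `G_ℚ`. -/
noncomputable abbrev GQ := (AlgebraicClosure ℚ ≃ₐ[ℚ] AlgebraicClosure ℚ)

section Inertia

variable {K L : Type*} [Field K] [Field L] [Algebra K L]

/-- Membership in the inertia group: decomposition group + trivial action on the residue field. -/
theorem mem_inertiaSubgroupIn_iff_forall (A : ValuationSubring L) (σ : L ≃ₐ[K] L) :
    σ ∈ A.inertiaSubgroupIn K ↔
      σ ∈ A.decompositionSubgroup K ∧ ∀ x ∈ A, σ x - x ∈ A.nonunits := by
  constructor
  · intro h
    exact ⟨Fermat.Agent.S05.mem_decompositionSubgroup_of_mem_inertiaSubgroupIn h,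
      fun x hx => Fermat.Agent.S05.apply_sub_mem_nonunits_of_mem_inertiaSubgroupIn h hx⟩
  · rintro ⟨hdec, h⟩
    refine ⟨⟨σ, hdec⟩, ?_, rfl⟩
    show (⟨σ, hdec⟩ : A.decompositionSubgroup K) ∈ A.inertiaSubgroup K
    rw [ValuationSubring.inertiaSubgroup, MonoidHom.mem_ker]
    ext x
    obtain ⟨a, rfl⟩ := IsLocalRing.residue_surjective x
    show (⟨σ, hdec⟩ : A.decompositionSubgroup K) • IsLocalRing.residue A a = IsLocalRing.residue A a
    rw [← IsLocalRing.ResidueField.residue_smul, ← sub_eq_zero, ← map_sub,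
      IsLocalRing.residue_eq_zero_iff, A.valuation_lt_one_iff]
    show A.valuation (σ (a : L) - (a : L)) < 1
    rw [← A.mem_nonunits_iff]
    exact h a a.2

theorem mem_smul_valuationSubring_iff (τ : L ≃ₐ[K] L) (A : ValuationSubring L) (x : L) :
    x ∈ τ • A ↔ τ⁻¹ x ∈ A := by
  constructor
  · intro hx
    obtain ⟨y, hy, rfl⟩ := (ValuationSubring.mem_smul_pointwise_iff_exists _ _ _).1 hx
    show τ⁻¹ (τ • y) ∈ A
    have : τ⁻¹ (τ • y) = y := by
      show τ⁻¹ (τ y) = y
      exact τ.symm_apply_apply y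
    rwa [this]
  · intro hx
    have : x = τ • (τ⁻¹ x) := by
      show x = τ (τ⁻¹ x)
      exact (τ.apply_symm_apply x).symm
    rw [this]
    exact ValuationSubring.smul_mem_pointwise_smul τ _ A hx

theorem mem_nonunits_smul_iff (τ : L ≃ₐ[K] L) (A : ValuationSubring L) (x : L) :
    x ∈ (τ • A).nonunits ↔ τ⁻¹ x ∈ A.nonunits := by
  rw [ValuationSubring.mem_nonunits_iff_or, ValuationSubring.mem_nonunits_iff_or,
    mem_smul_valuationSubring_iff, map_inv₀]
  have : τ⁻¹ x = 0 ↔ x = 0 := by
    show τ.symm x = 0 ↔ x = 0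
    exact map_eq_zero_iff _ τ.symm.injective
  rw [this]

/-- Conjugation transports inertia groups. -/
theorem conj_mem_inertiaSubgroupIn (τ : L ≃ₐ[K] L) {A : ValuationSubring L} {σ : L ≃ₐ[K] L}
    (hσ : σ ∈ A.inertiaSubgroupIn K) : τ * σ * τ⁻¹ ∈ (τ • A).inertiaSubgroupIn K := by
  rw [mem_inertiaSubgroupIn_iff_forall] at hσ ⊢
  obtain ⟨hdec, h⟩ := hσ
  refine ⟨?_, fun x hx => ?_⟩
  · show (τ * σ * τ⁻¹) • (τ • A) = τ • A
    rw [← mul_smul, inv_mul_cancel_right, mul_smul]
    congr 1
  · rw [mem_smul_valuationSubring_iff] at hx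
    rw [mem_nonunits_smul_iff]
    have h1 := h _ hx
    have h2 : τ⁻¹ ((τ * σ * τ⁻¹) x - x) = σ (τ⁻¹ x) - τ⁻¹ x := by
      rw [map_sub]
      congr 1
      show τ⁻¹ (τ (σ (τ⁻¹ x))) = σ (τ⁻¹ x)
      exact τ.symm_apply_apply _
    rw [h2]
    exact h1

end Inertia

section Fields

variable {S : Finset Nat.Primes}

theorem liesOverPrime_smul_iff (τ : GQ) (A : ValuationSubring Qbar) (q : ℕ) :
    (τ • A).LiesOverPrime q ↔ A.LiesOverPrime q := by
  unfold ValuationSubring.LiesOverPrime
  rw [mem_nonunits_smul_iff, map_natCast]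

/-- Galois conjugates of a field unramified outside `S` are unramified outside `S`. -/
theorem isUnramifiedOutside_map {F : IntermediateField ℚ Qbar} (hF : F.IsUnramifiedOutside S)
    (τ : GQ) : (F.map (τ : Qbar →ₐ[ℚ] Qbar)).IsUnramifiedOutside S := by
  have := hF.1
  refine ⟨?_, fun q hq A hA σ hσ => ?_⟩
  · exact LinearEquiv.finiteDimensional (F.equivMap (τ : Qbar →ₐ[ℚ] Qbar)).toLinearEquiv
  · rw [IntermediateField.mem_fixingSubgroup_iff]
    rintro x ⟨y, hy, rfl⟩
    have h1 : τ⁻¹ * σ * τ⁻¹⁻¹ ∈ (τ⁻¹ • A).inertiaSubgroupIn ℚ := conj_mem_inertiaSubgroupIn τ⁻¹ hσ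
    have h2 : (τ⁻¹ • A).LiesOverPrime (q : ℕ) := (liesOverPrime_smul_iff τ⁻¹ A q).2 hA
    have h3 := hF.2 q hq _ h2 h1
    rw [IntermediateField.mem_fixingSubgroup_iff] at h3
    have h4 := h3 y hy
    rw [inv_inv] at h4
    have h5 : τ ((τ⁻¹ * σ * τ) y) = τ y := congrArg τ h4
    have h6 : τ ((τ⁻¹ * σ * τ) y) = σ (τ y) := by
      show τ (τ⁻¹ (σ (τ y))) = σ (τ y)
      exact τ.apply_symm_apply _
    rw [h6] at h5
    exact h5

/-- A finite supremum of fields unramified outside `S` is unramified outside `S`. -/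
theorem isUnramifiedOutside_iSup {ι : Type*} [Finite ι] (F : ι → IntermediateField ℚ Qbar)
    (hF : ∀ i, (F i).IsUnramifiedOutside S) : (⨆ i, F i).IsUnramifiedOutside S := by
  have : ∀ i, FiniteDimensional ℚ (F i) := fun i => (hF i).1
  refine ⟨IntermediateField.finiteDimensional_iSup_of_finite, fun q hq A hA σ hσ => ?_⟩
  have hle : (⨆ i, F i) ≤ IntermediateField.fixedField (Subgroup.zpowers σ) := by
    refine iSup_le fun i x hx => ?_
    rw [IntermediateField.mem_fixedField_iff]
    rintro g hg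
    obtain ⟨n, rfl⟩ := Subgroup.mem_zpowers_iff.1 hg
    have h1 := (hF i).2 q hq A hA hσ
    have h2 : σ ^ n ∈ (F i).fixingSubgroup := Subgroup.zpow_mem _ h1 n
    rw [IntermediateField.mem_fixingSubgroup_iff] at h2
    exact h2 x hx
  rw [IntermediateField.mem_fixingSubgroup_iff]
  intro x hx
  have := hle hx
  rw [IntermediateField.mem_fixedField_iff] at this
  exact this σ (Subgroup.mem_zpowers σ)

/-- The normal closure of a field unramified outside `S` is unramified outside `S`. -/
theorem isUnramifiedOutside_normalClosure {F : IntermediateField ℚ Qbar}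
    (hF : F.IsUnramifiedOutside S) :
    (IntermediateField.normalClosure ℚ F Qbar).IsUnramifiedOutside S := by
  have := hF.1
  have hfd : FiniteDimensional ℚ (IntermediateField.normalClosure ℚ F Qbar) := inferInstance
  refine ⟨hfd, fun q hq A hA σ hσ => ?_⟩
  have hle : IntermediateField.normalClosure ℚ F Qbar
      ≤ IntermediateField.fixedField (Subgroup.zpowers σ) := by
    refine le_trans (le_of_eq (IntermediateField.normalClosure_def'' F)) ?_
    refine iSup_le fun τ x hx => ?_
    rw [IntermediateField.mem_fixedField_iff]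
    rintro g hg
    obtain ⟨n, rfl⟩ := Subgroup.mem_zpowers_iff.1 hg
    have h1 := (isUnramifiedOutside_map hF τ).2 q hq A hA hσ
    have h2 : σ ^ n ∈ (F.map (τ : Qbar →ₐ[ℚ] Qbar)).fixingSubgroup := Subgroup.zpow_mem _ h1 n
    rw [IntermediateField.mem_fixingSubgroup_iff] at h2
    exact h2 x hx
  rw [IntermediateField.mem_fixingSubgroup_iff]
  intro x hx
  have := hle hx
  rw [IntermediateField.mem_fixedField_iff] at this
  exact this σ (Subgroup.mem_zpowers σ)

end Fields

section LevelS

variable (S : Finset Nat.Primes)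

local instance isGaloisQbar_c0 : IsGalois ℚ (AlgebraicClosure ℚ) := ⟨⟩

/-- The level system on `G_ℚ` whose members are the fixing subgroups of the finite extensions
unramified outside `S`. -/
noncomputable def levelS : LevelSystem GQ where
  sets := {U | ∃ F : IntermediateField ℚ Qbar, F.IsUnramifiedOutside S ∧ U = F.fixingSubgroup}
  nonempty := ⟨_, ⊥, IntermediateField.isUnramifiedOutside_bot S, rfl⟩
  directed := by
    rintro U ⟨F, hF, rfl⟩ V ⟨F', hF', rfl⟩
    exact ⟨_, ⟨F ⊔ F', hF.sup hF', rfl⟩, by rw [IntermediateField.fixingSubgroup_sup]⟩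
  normal_below := by
    rintro U ⟨F, hF, rfl⟩
    have hN := isUnramifiedOutside_normalClosure hF
    have hfd : FiniteDimensional ℚ (IntermediateField.normalClosure ℚ F Qbar) := hN.1
    have hnorm : Normal ℚ (IntermediateField.normalClosure ℚ F Qbar) :=
      normalClosure.normal ℚ F Qbar
    have hgal : IsGalois ℚ (IntermediateField.normalClosure ℚ F Qbar) :=
      { to_isSeparable := inferInstance, to_normal := hnorm }
    refine ⟨_, ⟨IntermediateField.normalClosure ℚ F Qbar, hN, rfl⟩, ?_, ?_, ?_⟩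
    · exact IntermediateField.fixingSubgroup_antitone F.le_normalClosure
    · exact IsGalois.fixingSubgroup_normal_of_isGalois _
    · refine ⟨?_⟩
      rw [← IntermediateField.finrank_eq_fixingSubgroup_index]
      exact Module.finrank_pos.ne'

theorem mem_levelS_iff (U : Subgroup GQ) :
    U ∈ (levelS S).sets ↔
      ∃ F : IntermediateField ℚ Qbar, F.IsUnramifiedOutside S ∧ U = F.fixingSubgroup := Iff.rfl

/-- An open subgroup of `G_ℚ` containing all inertia groups at the primes outside `S` is a member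
of `levelS S`. -/
theorem mem_levelS_of_isOpen_of_inertia_le (H : Subgroup GQ) (hopen : IsOpen (H : Set GQ))
    (hur : ∀ q : Nat.Primes, q ∉ S → ∀ A : ValuationSubring Qbar, A.LiesOverPrime (q : ℕ) →
      A.inertiaSubgroupIn ℚ ≤ H) : H ∈ (levelS S).sets := by
  have hclosed : IsClosed (H : Set GQ) := Subgroup.isClosed_of_isOpen H hopen
  have hfix : (IntermediateField.fixedField H).fixingSubgroup = H :=
    InfiniteGalois.fixingSubgroup_fixedField ⟨H, hclosed⟩
  have hfd : FiniteDimensional ℚ (IntermediateField.fixedField H) := by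
    rw [← InfiniteGalois.isOpen_iff_finite]
    show IsOpen ((IntermediateField.fixedField H).fixingSubgroup : Set GQ)
    rw [hfix]
    exact hopen
  refine ⟨IntermediateField.fixedField H, ⟨hfd, fun q hq A hA => ?_⟩, hfix.symm⟩
  rw [hfix]
  exact hur q hq A hA

/-- A smooth representation of `G_ℚ` that is unramified outside `S` is discrete for `levelS S`. -/
theorem isDiscrete_levelS {k : Type} [CommRing k] (M : Rep k GQ)
    (hsm : ∀ m : M, ∃ F : IntermediateField ℚ Qbar, FiniteDimensional ℚ F ∧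
      ∀ s ∈ F.fixingSubgroup, M.ρ s m = m)
    (hMur : ∀ q : Nat.Primes, q ∉ S → ∀ A : ValuationSubring Qbar,
      A.LiesOverPrime (q : ℕ) → ∀ g ∈ A.inertiaSubgroupIn ℚ, M.ρ g = 1) :
    IsDiscrete (levelS S) M := by
  refine ⟨fun m => ?_⟩
  obtain ⟨F, hF, hFm⟩ := hsm m
  let H : Subgroup GQ :=
    { carrier := {g | M.ρ g m = m}
      mul_mem' := fun {a b} ha hb => by
        show M.ρ (a * b) m = m
        rw [map_mul, Module.End.mul_apply, hb, ha]
      one_mem' := by show M.ρ 1 m = m; rw [map_one]; rfl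
      inv_mem' := fun {a} ha => by
        show M.ρ a⁻¹ m = m
        have h1 : M.ρ a⁻¹ (M.ρ a m) = m := by
          rw [← Module.End.mul_apply, ← map_mul, inv_mul_cancel, map_one]; rfl
        rwa [ha] at h1 }
  have hle : F.fixingSubgroup ≤ H := fun s hs => hFm s hs
  have hopen : IsOpen (H : Set GQ) :=
    Subgroup.isOpen_mono hle ((InfiniteGalois.isOpen_iff_finite F).2 hF)
  refine ⟨H, mem_levelS_of_isOpen_of_inertia_le S H hopen (fun q hq A hA g hg => ?_), fun s hs => hs⟩
  show M.ρ g m = m
  rw [hMur q hq A hA g hg]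
  rfl

end LevelS

end Fermat.Agent.GC.C0
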