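import Mathlib
import Fermat.Prelude.Def_GroupCohomology_ContinuousUnramified
import Fermat.Agent.GC.C0.Level
import Fermat.Agent.GC.Prof.Res

/-!
# GATE-C / C0 (helper59): the full level system of `G_ℚ`, its pull-backs, and the dictionary
with the prelude's `IsLevelConstant₁/₂ r` and `IsLevelConstantS₁/₂ S`.
-/

set_option autoImplicit false

namespace Fermat.Agent.GC.C0

open Fermat.Agent.GC.Prof groupCohomology

local instance isAlgebraicQbar_c0' : Algebra.IsAlgebraic ℚ (AlgebraicClosure ℚ) :=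
  AlgebraicClosure.isAlgebraic ℚ
local instance isAlgClosureQbar_c0' : IsAlgClosure ℚ (AlgebraicClosure ℚ) :=
  ⟨inferInstance, inferInstance⟩
local instance normalQbar_c0' : Normal ℚ (AlgebraicClosure ℚ) :=
  IsAlgClosure.normal ℚ (AlgebraicClosure ℚ)
local instance isGaloisQbar_c0' : IsGalois ℚ (AlgebraicClosure ℚ) := ⟨⟩

/-- The level system of all open subgroups `Gal(ℚ̄/F)`, `F/ℚ` finite. -/
noncomputable def levelAll : LevelSystem GQ where
  sets := {U | ∃ F : IntermediateField ℚ Qbar, FiniteDimensional ℚ F ∧ U = F.fixingSubgroup}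
  nonempty := ⟨_, ⊥, inferInstance, rfl⟩
  directed := by
    rintro U ⟨F, hF, rfl⟩ V ⟨F', hF', rfl⟩
    have := hF; have := hF'
    exact ⟨_, ⟨F ⊔ F', IntermediateField.finiteDimensional_sup F F', rfl⟩,
      by rw [IntermediateField.fixingSubgroup_sup]⟩
  normal_below := by
    rintro U ⟨F, hF, rfl⟩
    have := hF
    have hfd : FiniteDimensional ℚ (IntermediateField.normalClosure ℚ F Qbar) := inferInstance
    have hnorm : Normal ℚ (IntermediateField.normalClosure ℚ F Qbar) :=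
      normalClosure.normal ℚ F Qbar
    have hgal : IsGalois ℚ (IntermediateField.normalClosure ℚ F Qbar) :=
      { to_isSeparable := inferInstance, to_normal := hnorm }
    refine ⟨_, ⟨IntermediateField.normalClosure ℚ F Qbar, hfd, rfl⟩, ?_, ?_, ?_⟩
    · exact IntermediateField.fixingSubgroup_antitone F.le_normalClosure
    · exact IsGalois.fixingSubgroup_normal_of_isGalois _
    · refine ⟨?_⟩
      rw [← IntermediateField.finrank_eq_fixingSubgroup_index]
      exact Module.finrank_pos.ne'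

theorem levelS_sets_subset_levelAll (S : Finset Nat.Primes) :
    (levelS S).sets ⊆ levelAll.sets := by
  rintro U ⟨F, hF, rfl⟩
  exact ⟨F, hF.1, rfl⟩

/-- The level system induced on `G` by a homomorphism `r : G → G_ℚ` (all finite levels). -/
noncomputable def levelOf {G : Type} [Group G] (r : G →* GQ) : LevelSystem G :=
  levelAll.comap r

theorem isContHom_levelOf {G : Type} [Group G] (r : G →* GQ) (S : Finset Nat.Primes) :
    IsContHom (levelOf r) (levelS S) r := by
  intro V hV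
  exact ⟨V.comap r, ⟨V, levelS_sets_subset_levelAll S hV, rfl⟩, le_rfl⟩

theorem isContHom_levelOf_all {G : Type} [Group G] (r : G →* GQ) :
    IsContHom (levelOf r) levelAll r := isContHom_comap r levelAll

section Dictionary

variable {G : Type} [Group G] (r : G →* GQ) {X : Type*}

theorem isLevelConstant₁_iff (f : G → X) :
    IsLevelConstant₁ r f ↔ ∃ U ∈ (levelOf r).sets, ∀ g s : G, s ∈ U → f (g * s) = f g := by
  constructor
  · rintro ⟨F, hF, h⟩
    exact ⟨F.fixingSubgroup.comap r, ⟨_, ⟨F, hF, rfl⟩, rfl⟩, fun g s hs => h g s hs⟩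
  · rintro ⟨_, ⟨_, ⟨F, hF, rfl⟩, rfl⟩, h⟩
    exact ⟨F, hF, fun g s hs => h g s hs⟩

theorem isLevelConstant₂_iff (f : G × G → X) :
    IsLevelConstant₂ r f ↔ ∃ U ∈ (levelOf r).sets,
      ∀ g g' s s' : G, s ∈ U → s' ∈ U → f (g * s, g' * s') = f (g, g') := by
  constructor
  · rintro ⟨F, hF, h⟩
    exact ⟨F.fixingSubgroup.comap r, ⟨_, ⟨F, hF, rfl⟩, rfl⟩,
      fun g g' s s' hs hs' => h g g' s s' hs hs'⟩
  · rintro ⟨_, ⟨_, ⟨F, hF, rfl⟩, rfl⟩, h⟩
    exact ⟨F, hF, fun g g' s s' hs hs' => h g g' s s' hs hs'⟩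

variable (S : Finset Nat.Primes)

theorem isLevelConstantS₁_iff (f : GQ → X) :
    IsLevelConstantS₁ S f ↔ ∃ U ∈ (levelS S).sets, ∀ g s : GQ, s ∈ U → f (g * s) = f g := by
  constructor
  · rintro ⟨F, hF, h⟩
    exact ⟨F.fixingSubgroup, ⟨F, hF, rfl⟩, fun g s hs => h g s hs⟩
  · rintro ⟨_, ⟨F, hF, rfl⟩, h⟩
    exact ⟨F, hF, fun g s hs => h g s hs⟩

theorem isLevelConstantS₂_iff (f : GQ × GQ → X) :
    IsLevelConstantS₂ S f ↔ ∃ U ∈ (levelS S).sets,
      ∀ g g' s s' : GQ, s ∈ U → s' ∈ U → f (g * s, g' * s') = f (g, g') := by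
  constructor
  · rintro ⟨F, hF, h⟩
    exact ⟨F.fixingSubgroup, ⟨F, hF, rfl⟩, fun g g' s s' hs hs' => h g g' s s' hs hs'⟩
  · rintro ⟨_, ⟨F, hF, rfl⟩, h⟩
    exact ⟨F, hF, fun g g' s s' hs hs' => h g g' s s' hs hs'⟩

end Dictionary

end Fermat.Agent.GC.C0
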