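import Mathlib
import Fermat.Prelude.Def_GroupCohomology_ContinuousUnramified
import Fermat.Agent.GC.C0.LevelAll
import Fermat.Agent.GC.Prof.Low

/-!
# GATE-C / C0 (helper59): the prelude's `continuousH2S S M` and `continuousH2 r A` are `Hlc · · 2`
-/

set_option autoImplicit false

namespace Fermat.Agent.GC.C0

open Fermat.Agent.GC.Prof groupCohomology

section Global

variable (S : Finset Nat.Primes) {k : Type} [CommRing k] (M : Rep k GQ)

theorem levelCochainsS₁_eq : levelCochainsS₁ S M = lcCochains₁ (levelS S) M := by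
  ext f
  exact isLevelConstantS₁_iff S f

theorem levelCochainsS₂_eq : levelCochainsS₂ S M = lcCochains₂ (levelS S) M := by
  ext f
  exact isLevelConstantS₂_iff S f

theorem levelCocyclesS₂_eq : levelCocyclesS₂ S M = lcCocycles₂ (levelS S) M := by
  unfold levelCocyclesS₂ lcCocycles₂
  rw [levelCochainsS₂_eq]

theorem levelCoboundariesS₂_eq : levelCoboundariesS₂ S M = lcCoboundaries₂ (levelS S) M := by
  unfold levelCoboundariesS₂ lcCoboundaries₂
  rw [levelCochainsS₁_eq]

end Global

section Abstract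

/-- Transport of a quotient `↥Z ⧸ B.comap Z.subtype` along equalities `Z = Z'`, `B = B'`. -/
noncomputable def quotComapEquivOfEq {k V : Type*} [CommRing k] [AddCommGroup V] [Module k V]
    {Z Z' B B' : Submodule k V} (hZ : Z = Z') (hB : B = B') :
    (↥Z ⧸ B.comap Z.subtype) ≃ₗ[k] (↥Z' ⧸ B'.comap Z'.subtype) :=
  Submodule.Quotient.equiv _ _ (LinearEquiv.ofEq Z Z' hZ) (by
    subst hZ hB
    ext x
    simp)

@[simp]
theorem quotComapEquivOfEq_mk {k V : Type*} [CommRing k] [AddCommGroup V] [Module k V]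
    {Z Z' B B' : Submodule k V} (hZ : Z = Z') (hB : B = B') (z : Z) :
    quotComapEquivOfEq hZ hB (Submodule.Quotient.mk z)
      = Submodule.Quotient.mk ⟨z.1, hZ ▸ z.2⟩ := rfl

end Abstract

section GlobalEquiv

variable (S : Finset Nat.Primes) {k : Type} [CommRing k] (M : Rep k GQ)
  [IsDiscrete (levelS S) M]

/-- The prelude's `continuousH2S S M` is `Hlc (levelS S) M 2`. -/
noncomputable def continuousH2SEquiv : continuousH2S S M ≃ₗ[k] Hlc (levelS S) M 2 :=
  (quotComapEquivOfEq (levelCocyclesS₂_eq S M) (levelCoboundariesS₂_eq S M)).trans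
    (Hlc2Equiv (levelS S) M)

theorem continuousH2SEquiv_mk (z : levelCocyclesS₂ S M) :
    continuousH2SEquiv S M (continuousH2Sπ S M z)
      = Hlc2π (levelS S) M ⟨z.1, (levelCocyclesS₂_eq S M) ▸ z.2⟩ := rfl

end GlobalEquiv

section Local

variable {G : Type} [Group G] (r : G →* GQ) {k : Type} [CommRing k] (A : Rep k G)

theorem levelCochains₁_eq : levelCochains₁ r A = lcCochains₁ (levelOf r) A := by
  ext f
  exact isLevelConstant₁_iff r f

theorem levelCochains₂_eq : levelCochains₂ r A = lcCochains₂ (levelOf r) A := by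
  ext f
  exact isLevelConstant₂_iff r f

theorem levelCocycles₂_eq : levelCocycles₂ r A = lcCocycles₂ (levelOf r) A := by
  unfold levelCocycles₂ lcCocycles₂
  rw [levelCochains₂_eq]

theorem levelCoboundaries₂_eq : levelCoboundaries₂ r A = lcCoboundaries₂ (levelOf r) A := by
  unfold levelCoboundaries₂ lcCoboundaries₂
  rw [levelCochains₁_eq]

variable [IsDiscrete (levelOf r) A]

/-- The prelude's `continuousH2 r A` is `Hlc (levelOf r) A 2`. -/
noncomputable def continuousH2Equiv : continuousH2 r A ≃ₗ[k] Hlc (levelOf r) A 2 :=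
  (quotComapEquivOfEq (levelCocycles₂_eq r A) (levelCoboundaries₂_eq r A)).trans
    (Hlc2Equiv (levelOf r) A)

theorem continuousH2Equiv_mk (z : levelCocycles₂ r A) :
    continuousH2Equiv r A (continuousH2π r A z)
      = Hlc2π (levelOf r) A ⟨z.1, (levelCocycles₂_eq r A) ▸ z.2⟩ := rfl

end Local

end Fermat.Agent.GC.C0
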