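import Mathlib
import Fermat.Prelude.Def_GroupCohomology_ContinuousUnramified
import Fermat.Agent.GC.C0.BridgeH2

/-!
# GATE-C / C0 (helper59): the prelude's localisation `locRes₂S` is `HlcRes` in degree `2`
-/

set_option autoImplicit false

namespace Fermat.Agent.GC.C0

open Fermat.Agent.GC.Prof groupCohomology CategoryTheory

/-- Restrictions of a `levelS S`-discrete representation are discrete for the induced levels. -/
theorem isDiscrete_res_levelOf (S : Finset Nat.Primes) {k : Type} [CommRing k] (M : Rep k GQ)
    [IsDiscrete (levelS S) M] {H : Type} [Group H] (f : H →* GQ) :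
    IsDiscrete (levelOf f) (Rep.res f M) :=
  IsDiscrete.res (isContHom_levelOf f S) M

variable (S : Finset Nat.Primes) {k : Type} [CommRing k] (M : Rep k GQ)
  [IsDiscrete (levelS S) M]

theorem continuousH2Equiv_locRes₂S {H : Type} [Group H] (f : H →* GQ)
    (x : continuousH2S S M) :
    haveI := isDiscrete_res_levelOf S M f
    continuousH2Equiv f (Rep.res f M) (locRes₂S S M f x)
      = (HlcRes (isContHom_levelOf f S) M 2).hom (continuousH2SEquiv S M x) := by
  have := isDiscrete_res_levelOf S M f
  obtain ⟨z, rfl⟩ := Submodule.mkQ_surjective _ x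
  change continuousH2Equiv f (Rep.res f M) (locRes₂S S M f (continuousH2Sπ S M z)) = _
  rw [continuousH2SEquiv_mk, Hlc2π_apply, HlcRes_mk]
  have h1 : locRes₂S S M f (continuousH2Sπ S M z)
      = continuousH2π f (Rep.res f M)
          (levelCocycles₂Map (rH := MonoidHom.id _) (rG := f) f (fun _ => rfl)
            (LinearMap.id : M →ₗ[k] Rep.res f M) (fun _ _ => rfl)
            (levelCocyclesS₂ToLevelCocycles₂ S M z)) := rfl
  rw [h1, continuousH2Equiv_mk, Hlc2π_apply]
  apply HlcMk_congr
  apply Subtype.ext
  funext g
  rfl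

end Fermat.Agent.GC.C0
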