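import Mathlib
import Fermat.Prelude.Def_GroupCohomology_ContinuousUnramified
import Fermat.Agent.GC.C0.BridgeLoc2
import Fermat.Agent.GC.Arch

/-!
# GATE-C / C0 (helper59): `sha₂ S M` is the kernel of the total localisation on `Hlc · · 2`
-/

set_option autoImplicit false

namespace Fermat.Agent.GC.C0

open Fermat.Agent.GC.Prof groupCohomology CategoryTheory ExtCitation

variable (S : Finset Nat.Primes) {k : Type} [CommRing k] (M : Rep k GQ)
  [IsDiscrete (levelS S) M]

/-- Local `Hlc` at the prime `q` (all open subgroups of `G_{ℚ_q}` as levels), degree `n`. -/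
noncomputable abbrev HlcLoc (q : Nat.Primes) (n : ℕ) : ModuleCat k :=
  @Hlc k (primeLocalGaloisGroup q) _ _ (levelOf (primeLocalToGlobal q))
    (Rep.res (primeLocalToGlobal q) M) (isDiscrete_res_levelOf S M (primeLocalToGlobal q)) n

/-- Localisation at `q` on `Hlc`. -/
noncomputable abbrev HlcLocRes (q : Nat.Primes) (n : ℕ) :
    Hlc (levelS S) M n ⟶ HlcLoc S M q n :=
  haveI := isDiscrete_res_levelOf S M (primeLocalToGlobal q)
  HlcRes (isContHom_levelOf (primeLocalToGlobal q) S) M n

/-- Total localisation over the finite places in `S`. -/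
noncomputable def locHlc (n : ℕ) :
    Hlc (levelS S) M n →ₗ[k] ∀ q : ↥S, HlcLoc S M q.1 n :=
  LinearMap.pi fun q => (HlcLocRes S M q.1 n).hom

/-- `Ш^n` on level-constant cochains: the kernel of the total localisation. -/
noncomputable def ShaLc (n : ℕ) : Submodule k (Hlc (levelS S) M n) :=
  LinearMap.ker (locHlc S M n)

theorem mem_ShaLc_iff (n : ℕ) (x : Hlc (levelS S) M n) :
    x ∈ ShaLc S M n ↔ ∀ q : ↥S, (HlcLocRes S M q.1 n).hom x = 0 := by
  unfold ShaLc locHlc
  rw [LinearMap.mem_ker]
  constructor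
  · intro h q
    exact congrFun h q
  · intro h
    funext q
    exact h q

end Fermat.Agent.GC.C0

namespace Fermat.Agent.GC.C0

open Fermat.Agent.GC.Prof groupCohomology CategoryTheory ExtCitation

variable {p : ℕ} [Fact p.Prime] (S : Finset Nat.Primes) (M : Rep (ZMod p) GQ)
  [IsDiscrete (levelS S) M]

theorem continuousH2SEquiv_mem_ShaLc_iff (hp2 : p ≠ 2) (x : continuousH2S S M) :
    continuousH2SEquiv S M x ∈ ShaLc S M 2 ↔ x ∈ sha₂ S M := by
  rw [mem_ShaLc_iff, Fermat.Agent.GC.Arch.mem_sha₂_iff S hp2]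
  refine forall_congr' fun q => ?_
  have h := continuousH2Equiv_locRes₂S S M (primeLocalToGlobal q.1) x
  constructor
  · intro hx
    have h0 : @continuousH2Equiv _ _ (primeLocalToGlobal q.1) _ _
        (Rep.res (primeLocalToGlobal q.1) M) (isDiscrete_res_levelOf S M _)
        (locRes₂S S M (primeLocalToGlobal q.1) x) = 0 := h.trans hx
    exact (LinearEquiv.map_eq_zero_iff _).1 h0
  · intro hx
    rw [hx, map_zero] at h
    exact h.symm

/-- The prelude's `sha₂ S M` is `ShaLc S M 2`. -/
noncomputable def sha₂Equiv (hp2 : p ≠ 2) : sha₂ S M ≃ₗ[ZMod p] ShaLc S M 2 :=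
  LinearEquiv.ofSubmodules (continuousH2SEquiv S M) (sha₂ S M) (ShaLc S M 2) (by
    ext y
    constructor
    · rintro ⟨x, hx, rfl⟩
      exact (continuousH2SEquiv_mem_ShaLc_iff S M hp2 x).2 hx
    · intro hy
      refine ⟨(continuousH2SEquiv S M).symm y, ?_, by simp⟩
      rw [SetLike.mem_coe, ← continuousH2SEquiv_mem_ShaLc_iff S M hp2]
      simpa using hy)

end Fermat.Agent.GC.C0
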