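import Mathlib
import Fermat.Prelude.Def_GroupCohomology_ContinuousUnramified
import Fermat.Agent.GC.C0.Level
import Fermat.Agent.GJ.CycChar

/-!
# GATE-C / C0 (helper59): the Tate dual `M* = M.dualTwist (cycloChar p)` is again smooth and
unramified outside `S` (when `p ∈ S`), hence discrete for `levelS S`.
-/

set_option autoImplicit false

namespace Fermat.Agent.GC.C0

open Fermat.Agent.GC.Prof ExtCitation

variable {p : ℕ} [Fact p.Prime]

theorem cyc_eq_cycloChar : Fermat.Agent.GJ.CycChar.cyc p = cycloChar p := rfl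

/-- The mod `p` cyclotomic character is trivial on inertia at `q ≠ p`. -/
theorem cycloChar_inertia {q : ℕ} (hq : q.Prime) (hne : q ≠ p) {A : ValuationSubring Qbar}
    (hA : A.LiesOverPrime q) {σ : GQ} (hσ : σ ∈ A.inertiaSubgroupIn ℚ) : cycloChar p σ = 1 := by
  rw [← cyc_eq_cycloChar]
  exact Fermat.Agent.GJ.CycChar.cyc_inertia hq hne hA hσ

/-- The mod `p` cyclotomic character factors through a finite level. -/
theorem cycloChar_finiteLevel :
    ∃ L : IntermediateField ℚ Qbar, FiniteDimensional ℚ L ∧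
      ∀ σ ∈ L.fixingSubgroup, cycloChar p σ = 1 := by
  obtain ⟨L, hL, h⟩ := Fermat.Agent.GJ.CycChar.cyc_finiteLevel p
  refine ⟨L, hL, fun σ hσ => ?_⟩
  rw [← cyc_eq_cycloChar]
  exact h σ ((IntermediateField.mem_fixingSubgroup_iff L σ).1 hσ)

variable (S : Finset Nat.Primes)

/-- Smoothness of the Tate dual of a finite-dimensional smooth representation. -/
theorem dualTwist_smooth (M : Rep (ZMod p) GQ) [FiniteDimensional (ZMod p) M]
    (hsm : ∀ m : M, ∃ F : IntermediateField ℚ Qbar, FiniteDimensional ℚ F ∧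
      ∀ s ∈ F.fixingSubgroup, M.ρ s m = m) :
    ∀ f : M.dualTwist (cycloChar p), ∃ F : IntermediateField ℚ Qbar, FiniteDimensional ℚ F ∧
      ∀ s ∈ F.fixingSubgroup, (M.dualTwist (cycloChar p)).ρ s f = f := by
  classical
  -- one field fixing all of `M`
  let b := Module.finBasis (ZMod p) M
  choose F hF hFm using hsm
  obtain ⟨L, hL, hLχ⟩ := cycloChar_finiteLevel (p := p)
  have hfd : ∀ i, FiniteDimensional ℚ (F (b i)) := fun i => hF (b i)
  let E : IntermediateField ℚ Qbar := (⨆ i, F (b i)) ⊔ L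
  have hE : FiniteDimensional ℚ E := by
    have : FiniteDimensional ℚ (⨆ i, F (b i) : IntermediateField ℚ Qbar) :=
      IntermediateField.finiteDimensional_iSup_of_finite
    exact IntermediateField.finiteDimensional_sup _ _
  have hfix : ∀ s ∈ E.fixingSubgroup, ∀ m : M, M.ρ s m = m := by
    intro s hs m
    have hs' : ∀ i, s ∈ (F (b i)).fixingSubgroup := fun i =>
      IntermediateField.fixingSubgroup_antitone
        (le_trans (le_iSup (fun i => F (b i)) i) le_sup_left) hs
    have : M.ρ s = LinearMap.id := by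
      apply b.ext
      intro i
      exact hFm (b i) s (hs' i)
    rw [this]; rfl
  intro f
  refine ⟨E, hE, fun s hs => ?_⟩
  have hχ : cycloChar p s = 1 :=
    hLχ s (IntermediateField.fixingSubgroup_antitone le_sup_right hs)
  have hs_inv : s⁻¹ ∈ E.fixingSubgroup := inv_mem hs
  rw [Rep.dualTwist_ρ_apply, hχ, Units.val_one, one_smul]
  apply LinearMap.ext
  intro m
  rw [LinearMap.comp_apply]
  congr 1
  exact hfix s⁻¹ hs_inv m

/-- The Tate dual is unramified outside `S` when `p ∈ S`. -/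
theorem dualTwist_unramified (hpS : pPrime p ∈ S) (M : Rep (ZMod p) GQ)
    (hMur : ∀ q : Nat.Primes, q ∉ S → ∀ A : ValuationSubring Qbar,
      A.LiesOverPrime (q : ℕ) → ∀ g ∈ A.inertiaSubgroupIn ℚ, M.ρ g = 1) :
    ∀ q : Nat.Primes, q ∉ S → ∀ A : ValuationSubring Qbar,
      A.LiesOverPrime (q : ℕ) → ∀ g ∈ A.inertiaSubgroupIn ℚ,
        (M.dualTwist (cycloChar p)).ρ g = 1 := by
  intro q hq A hA g hg
  have hne : (q : ℕ) ≠ p := by
    intro h
    apply hq
    have : q = pPrime p := Subtype.ext h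
    rwa [this]
  have hχ : cycloChar p g = 1 := cycloChar_inertia q.2 hne hA hg
  have hg' : M.ρ g⁻¹ = 1 := hMur q hq A hA g⁻¹ (inv_mem hg)
  apply LinearMap.ext
  intro f
  rw [Rep.dualTwist_ρ_apply, hχ, Units.val_one, one_smul, hg']
  rfl

/-- The Tate dual is discrete for `levelS S`. -/
theorem isDiscrete_dualTwist (hpS : pPrime p ∈ S) (M : Rep (ZMod p) GQ)
    [FiniteDimensional (ZMod p) M]
    (hsm : ∀ m : M, ∃ F : IntermediateField ℚ Qbar, FiniteDimensional ℚ F ∧
      ∀ s ∈ F.fixingSubgroup, M.ρ s m = m)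
    (hMur : ∀ q : Nat.Primes, q ∉ S → ∀ A : ValuationSubring Qbar,
      A.LiesOverPrime (q : ℕ) → ∀ g ∈ A.inertiaSubgroupIn ℚ, M.ρ g = 1) :
    IsDiscrete (levelS S) (M.dualTwist (cycloChar p)) :=
  isDiscrete_levelS S _ (dualTwist_smooth M hsm) (dualTwist_unramified S hpS M hMur)

end Fermat.Agent.GC.C0
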