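import Mathlib
import Fermat.Agent.GC.C0.Dual

/-!
# GATE-C / C0 (helper59): `χ|_{G_K} = 1 ⟹ ζ_p ∈ K`

If the mod `p` cyclotomic character is trivial on `G_K = K.fixingSubgroup` then `K` contains a
primitive `p`-th root of unity (the hypothesis `hζK` of helper78's Kummer sequence
`GC/Kummer/HlcMu.lean`, produced from the hypothesis `∀ g ∈ H, χ g = 1` of the C5 `base`).
-/

set_option autoImplicit false

namespace Fermat.Agent.GC.C0

open ExtCitation

variable {p : ℕ} [Fact p.Prime]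

/-- A primitive `p`-th root of unity of `ℚ̄` lies in `K` as soon as the mod `p` cyclotomic character
is trivial on `G_K`. -/
theorem primitiveRoot_mem_of_cycloChar_eq_one (K : IntermediateField ℚ Qbar)
    (h : ∀ g ∈ K.fixingSubgroup, cycloChar p g = 1) {ζ : Qbar} (hζ : IsPrimitiveRoot ζ p) :
    ζ ∈ K := by
  have hfix : IntermediateField.fixedField K.fixingSubgroup = K :=
    InfiniteGalois.fixedField_fixingSubgroup K
  rw [← hfix, IntermediateField.mem_fixedField_iff]
  intro g hg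
  have h1 := h g hg
  rw [← cyc_eq_cycloChar] at h1
  exact (Fermat.Agent.GJ.CycChar.cyc_eq_one_iff hζ g).1 h1

/-- Unit form: there is a primitive `p`-th root of unity `ζ : ℚ̄ˣ` with `(ζ : ℚ̄) ∈ K`. -/
theorem exists_primitiveRoot_units_mem_of_cycloChar_eq_one (K : IntermediateField ℚ Qbar)
    (h : ∀ g ∈ K.fixingSubgroup, cycloChar p g = 1) :
    ∃ ζ : Qbarˣ, IsPrimitiveRoot ζ p ∧ ((ζ : Qbarˣ) : Qbar) ∈ K := by
  obtain ⟨ζ, hζ⟩ := Fermat.Agent.GJ.CycChar.exists_primitiveRoot (p := p)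
  have hne : ζ ≠ 0 := hζ.ne_zero (Fact.out : p.Prime).ne_zero
  refine ⟨Units.mk0 ζ hne, ?_, primitiveRoot_mem_of_cycloChar_eq_one K h hζ⟩
  have h2 : IsPrimitiveRoot ((Units.mk0 ζ hne : Qbarˣ) : Qbar) p := hζ
  exact IsPrimitiveRoot.coe_units_iff.1 h2

end Fermat.Agent.GC.C0
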