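/-
GATE-C / C0 + C5 (helper19): S55 from `(N-a)_ℚ`, `(NC)_ℚ` and the GLOBAL packages `KummerK`.

`PTSha_of_kummerAll` = `PTSha_of_inputsK` with all local fields of `BaseInputsK` discharged
(`BaseInputsKOfKummer.lean`: helper61 HILBERT/DualK, helper21 COR-INJ, helper41 LOCAL-NUM, (I)).
The remaining inputs of GATE-C: `hNa`, `hNC`, and for every finite `K ⊆ ℚ_S` containing `ζ_p` the
five statements `fin1 fin2 h3 cokK c1K` about `Hlc(G_{K,S}, ZMod p)`.
-/
import Mathlib
import Fermat.Agent.GC.C0.S55InputsK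
import Fermat.Agent.GC.PT.BaseInputsKOfKummer

set_option autoImplicit false

namespace Fermat.Agent.GC.C0

open Fermat.Agent.GC.Prof Fermat.Agent.GC.Prof.Cone Fermat.Agent.GC.PT
  Fermat.Agent.GC.PT.LocDataQ Fermat.Agent.GC.PT.MainInst groupCohomology CategoryTheory
  ExtCitation Module

variable {p : ℕ} [Fact p.Prime]

/-- **S55 chain, global-`K` form.** -/
theorem PTSha_of_kummerAll (S : Finset Nat.Primes) (hpS : pPrime p ∈ S)
    [IsDiscrete (levelS S) (TChi p)]
    [FiniteDimensional (ZMod p)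
      (∀ v, Hlc ((locDataQ S).𝒰v v) (Rep.res ((locDataQ S).r v) (TChi p)) 2)]
    (hNa : finrank (ZMod p)
        (∀ v, Hlc ((locDataQ S).𝒰v v) (Rep.res ((locDataQ S).r v) (TChi p)) 2) ≤
      finrank (ZMod p) (LinearMap.range (locRes (locDataQ S) (TChi p) 2)) + 1)
    (hNC : ∀ (v : (locDataQ S).ι)
      (y : Hlc ((locDataQ S).𝒰v v) (Rep.res ((locDataQ S).r v) (TChi p)) 2)
      (x : Hlc (levelS S) (TChi p) 2),
      locRes (locDataQ S) (TChi p) 2 x = Pi.single v y → y = 0)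
    (hKum : BaseInputsQ.KummerAll S p)
    (M : Rep (ZMod p) GQ) [FiniteDimensional (ZMod p) M] [IsDiscrete (levelS S) M]
    [IsDiscrete (levelS S) (M.dualTwist (cycloChar p))] : PTSha S M :=
  PTSha_of_inputsK S hpS hNa hNC
    (fun τ _ hI => BaseInputsQ.inputsK_of_kummerAll S p hKum τ hI) M

end Fermat.Agent.GC.C0
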