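/-
GATE-C / C0 + C5 (helper19): S55 from TWO inputs.

`PTSha_of_NC_kummerAll`: `PTSha S M` (hence S55) from
* `(NC)_ℚ` : a global class of `Hlc²(G_{ℚ,S}, k(χ))` whose localisation is concentrated at one
  place `v ∈ S` is locally trivial at `v`;
* `KummerAll S p` : for every finite `K ⊆ ℚ_S` containing `ζ_p`, the five global statements
  `fin1 fin2 h3 cokK c1K` about `Hlc(G_{K,S}, ZMod p)`.
`(N-a)_ℚ` follows from the `cokK`'s (helper69 `NaCoeffQ`), `FiniteDimensional Λ` is helper41's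
`LocalNumLam`.
-/
import Mathlib
import Fermat.Agent.GC.C0.S55KummerK
import Fermat.Agent.GC.Places.NaCoeffQ
import Fermat.Agent.GC.Places.LocalNumLam

set_option autoImplicit false

namespace Fermat.Agent.GC.C0

open Fermat.Agent.GC.Prof Fermat.Agent.GC.Prof.Cone Fermat.Agent.GC.PT
  Fermat.Agent.GC.PT.LocDataQ Fermat.Agent.GC.PT.MainInst groupCohomology CategoryTheory
  ExtCitation Module Fermat.Agent.GC.PT.BaseInputsQ Fermat.Agent.GC.Places

attribute [local instance] Fermat.Agent.GC.PT.LocDataQ.factPrimeOfPrimes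

variable {p : ℕ} [Fact p.Prime]

/-- `(N-a)_ℚ` from the `cokK` fields of `KummerAll`. -/
theorem hNa_of_kummerAll (S : Finset Nat.Primes) (hpS : pPrime p ∈ S)
    [IsDiscrete (levelS S) (TChi p)] (hKum : KummerAll S p) :
    finrank (ZMod p)
        (∀ v, Hlc ((locDataQ S).𝒰v v) (Rep.res ((locDataQ S).r v) (TChi p)) 2) ≤
      finrank (ZMod p) (LinearMap.range (locRes (locDataQ S) (TChi p) 2)) + 1 := by
  haveI := LocalNum.finiteDimensional_Lam S p 2 le_rfl
  refine finrank_le_range_locRes_chiRep_of_cokK S hpS 2 ?_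
  intro K hfd hK hχ hI
  haveI := chiDisc_of S K (cycloChar p)
  have hχK : ∀ s : K.fixingSubgroup, cycloChar p (s : GQ) = 1 := fun s => hχ s s.2
  have KK := hKum K hK hχK
  haveI hfin : ∀ (q : ↥S) (w : Fermat.Agent.GC.Places.placeIdx ((q : Nat.Primes) : ℕ) K),
      FiniteDimensional (ZMod p) (BaseInstQ.HlcKw S K (trivK (ZMod p) K) q w 2) :=
    fun q w => finiteDimensional_HlcKw S K p hχK q w 2 le_rfl
  exact ⟨BaseInstQ.finiteDimensional_LocKw S K (trivK (ZMod p) K) 2, KK.cokK⟩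

/-- **S55 chain, final hypothesis form: two inputs.** -/
theorem PTSha_of_NC_kummerAll (S : Finset Nat.Primes) (hpS : pPrime p ∈ S)
    [IsDiscrete (levelS S) (TChi p)]
    (hNC : ∀ (v : (locDataQ S).ι)
      (y : Hlc ((locDataQ S).𝒰v v) (Rep.res ((locDataQ S).r v) (TChi p)) 2)
      (x : Hlc (levelS S) (TChi p) 2),
      locRes (locDataQ S) (TChi p) 2 x = Pi.single v y → y = 0)
    (hKum : KummerAll S p)
    (M : Rep (ZMod p) GQ) [FiniteDimensional (ZMod p) M] [IsDiscrete (levelS S) M]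
    [IsDiscrete (levelS S) (M.dualTwist (cycloChar p))] : PTSha S M := by
  haveI := LocalNum.finiteDimensional_Lam S p 2 le_rfl
  exact PTSha_of_kummerAll S hpS (hNa_of_kummerAll S hpS hKum) hNC hKum M

/-- **S55 (frozen statement shape) from the two inputs**; `Fermat/Agent/S55.lean` is this theorem
once `hNC` and `hKum` are closed terms. -/
theorem s55_of_NC_kummerAll (hp2 : p ≠ 2) (S : Finset Nat.Primes) (hpS : pPrime p ∈ S)
    (hNC : ∀ [IsDiscrete (levelS S) (TChi p)] (v : (locDataQ S).ι)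
      (y : Hlc ((locDataQ S).𝒰v v) (Rep.res ((locDataQ S).r v) (TChi p)) 2)
      (x : Hlc (levelS S) (TChi p) 2),
      locRes (locDataQ S) (TChi p) 2 x = Pi.single v y → y = 0)
    (hKum : ∀ [IsDiscrete (levelS S) (TChi p)], KummerAll S p)
    (M : Rep (ZMod p) (AlgebraicClosure ℚ ≃ₐ[ℚ] AlgebraicClosure ℚ))
    [FiniteDimensional (ZMod p) M]
    (hsm : ∀ m : M, ∃ F : IntermediateField ℚ (AlgebraicClosure ℚ), FiniteDimensional ℚ F ∧
      ∀ s ∈ F.fixingSubgroup, M.ρ s m = m)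
    (hMur : ∀ q : Nat.Primes, q ∉ S → ∀ A : ValuationSubring (AlgebraicClosure ℚ),
      A.LiesOverPrime (q : ℕ) → ∀ g ∈ A.inertiaSubgroupIn ℚ, M.ρ g = 1) :
    ∃ B : sha₁ S (M.dualTwist (cycloChar p)) →ₗ[ZMod p] sha₂ S M →ₗ[ZMod p] ZMod p,
      (∀ y, (∀ x, B y x = 0) → y = 0) ∧ (∀ x, (∀ y, B y x = 0) → x = 0) := by
  haveI := isDiscrete_levelS S M hsm hMur
  haveI := isDiscrete_dualTwist S hpS M hsm hMur
  haveI := isDiscrete_TChi (p := p) S hpS
  exact S55_of_PTSha hp2 S M (PTSha_of_NC_kummerAll S hpS hNC hKum M)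

end Fermat.Agent.GC.C0
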