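/-
GATE-C / C0 + C4 glue (helper19): **S55 (frozen statement shape) from `(NC)_ℚ` and the four
arithmetic hypotheses `KBGlue.KHyps S K p` at every finite `K ⊂ ℚ_S` containing `ζ_p`.**
-/
import Mathlib
import Fermat.Agent.GC.C0.S55TwoInputs
import Fermat.Agent.GC.Global.KummerKOfHyps

set_option autoImplicit false

namespace Fermat.Agent.GC.C0

open Fermat.Agent.GC.Prof Fermat.Agent.GC.Prof.Cone Fermat.Agent.GC.PT
  Fermat.Agent.GC.PT.LocDataQ groupCohomology CategoryTheory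
  ExtCitation Module Fermat.Agent.GC.PT.BaseInputsQ Fermat.Agent.GC.Places

attribute [local instance] Fermat.Agent.GC.PT.LocDataQ.factPrimeOfPrimes

variable {p : ℕ} [Fact p.Prime]

/-- **S55 from `(NC)_ℚ` + `KHyps` at every `K ∋ ζ_p`.**  `KHyps S K p` = helper77's
`HasseHyp S K p` + `EJDHyp (levelK S K) p (XK S K)` + `LJHyp S K p` + `|Hlc²(D_S|G_K)[p]| = p`. -/
theorem s55_of_NC_KHyps (hp2 : p ≠ 2) (S : Finset Nat.Primes) (hpS : pPrime p ∈ S)
    (hNC : ∀ [IsDiscrete (levelS S) (TChi p)] (v : (locDataQ S).ι)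
      (y : Hlc ((locDataQ S).𝒰v v) (Rep.res ((locDataQ S).r v) (TChi p)) 2)
      (x : Hlc (levelS S) (TChi p) 2),
      locRes (locDataQ S) (TChi p) 2 x = Pi.single v y → y = 0)
    (hK : ∀ (K : IntermediateField ℚ (AlgebraicClosure ℚ)) [FiniteDimensional ℚ K],
      K.IsUnramifiedOutside S →
      (∀ s : K.fixingSubgroup,
        cycloChar p (s : AlgebraicClosure ℚ ≃ₐ[ℚ] AlgebraicClosure ℚ) = 1) →
      Fermat.Agent.GC.KBGlue.KHyps S K p)
    (M : Rep (ZMod p) (AlgebraicClosure ℚ ≃ₐ[ℚ] AlgebraicClosure ℚ))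
    [FiniteDimensional (ZMod p) M]
    (hsm : ∀ m : M, ∃ F : IntermediateField ℚ (AlgebraicClosure ℚ), FiniteDimensional ℚ F ∧
      ∀ s ∈ F.fixingSubgroup, M.ρ s m = m)
    (hMur : ∀ q : Nat.Primes, q ∉ S → ∀ A : ValuationSubring (AlgebraicClosure ℚ),
      A.LiesOverPrime (q : ℕ) → ∀ g ∈ A.inertiaSubgroupIn ℚ, M.ρ g = 1) :
    ∃ B : sha₁ S (M.dualTwist (cycloChar p)) →ₗ[ZMod p] sha₂ S M →ₗ[ZMod p] ZMod p,
      (∀ y, (∀ x, B y x = 0) → y = 0) ∧ (∀ x, (∀ y, B y x = 0) → x = 0) :=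
  s55_of_NC_kummerAll hp2 S hpS hNC
    (fun {_} => Fermat.Agent.GC.KBGlue.kummerAll_of_hyps hp2 S hpS hK) M hsm hMur

end Fermat.Agent.GC.C0
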