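import Mathlib
import Fermat.Prelude.Def_GroupCohomology_ContinuousUnramified
import Fermat.Agent.GC.C0.Sha2

/-!
# GATE-C / C0 (helper59): `sha₁ S A` is the kernel of the total localisation on `Hlc · · 1`
-/

set_option autoImplicit false

namespace Fermat.Agent.GC.C0

open Fermat.Agent.GC.Prof groupCohomology CategoryTheory ExtCitation

section General

variable (S : Finset Nat.Primes) {k : Type} [CommRing k] (A : Rep k GQ)

theorem continuousH1S_eq_lcH1 : continuousH1S S A = lcH1 (levelS S) A := by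
  unfold continuousH1S levelCocyclesS₁ lcH1
  rw [levelCochainsS₁_eq]

end General

variable {p : ℕ} [Fact p.Prime] (S : Finset Nat.Primes) (A : Rep (ZMod p) GQ)
  [IsDiscrete (levelS S) A]

theorem locRes_HlcToH (q : ↥S) (y : Hlc (levelS S) A 1) :
    (locRes (extArithLoc S) A (Sum.inr q)).hom ((HlcToH (levelS S) A 1).hom y)
      = (@HlcToH _ _ _ _ (levelOf (primeLocalToGlobal q.1)) (Rep.res (primeLocalToGlobal q.1) A)
          (isDiscrete_res_levelOf S A _) 1).hom ((HlcLocRes S A q.1 1).hom y) := by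
  have := isDiscrete_res_levelOf S A (primeLocalToGlobal q.1)
  have h := HlcRes_comp_HlcToH (isContHom_levelOf (primeLocalToGlobal q.1) S) A 1
  have h2 := congrArg (fun φ => φ.hom y) h
  simp only [ModuleCat.hom_comp, LinearMap.comp_apply] at h2
  exact h2.symm

theorem HlcToH_mem_sha₁_iff (hp2 : p ≠ 2) (y : Hlc (levelS S) A 1) :
    (HlcToH (levelS S) A 1).hom y ∈ sha₁ S A ↔ y ∈ ShaLc S A 1 := by
  rw [Fermat.Agent.GC.Arch.mem_sha₁_iff S hp2, mem_ShaLc_iff, continuousH1S_eq_lcH1]
  have hmem : (HlcToH (levelS S) A 1).hom y ∈ lcH1 (levelS S) A := by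
    rw [← range_HlcToH_one]
    exact ⟨y, rfl⟩
  rw [and_iff_right hmem]
  refine forall_congr' fun q => ?_
  rw [locRes_HlcToH]
  have := isDiscrete_res_levelOf S A (primeLocalToGlobal q.1)
  constructor
  · intro h
    exact HlcToH_one_injective (levelOf (primeLocalToGlobal q.1))
      (Rep.res (primeLocalToGlobal q.1) A) (h.trans (map_zero _).symm)
  · intro h
    rw [h, map_zero]
    rfl

/-- The prelude's `sha₁ S A` is `ShaLc S A 1`. -/
noncomputable def sha₁Equiv (hp2 : p ≠ 2) : ShaLc S A 1 ≃ₗ[ZMod p] sha₁ S A :=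
  LinearEquiv.ofBijective
    (((HlcToH (levelS S) A 1).hom.comp (ShaLc S A 1).subtype).codRestrict (sha₁ S A)
      (fun y => (HlcToH_mem_sha₁_iff S A hp2 y.1).2 y.2))
    ⟨by
      intro y y' h
      have h' := congrArg Subtype.val h
      exact Subtype.ext (HlcToH_one_injective (levelS S) A h'),
     by
      rintro ⟨x, hx⟩
      have hx' := hx
      rw [sha₁, Submodule.mem_inf, continuousH1S_eq_lcH1, ← range_HlcToH_one] at hx'
      obtain ⟨⟨y, rfl⟩, -⟩ := hx'
      exact ⟨⟨y, (HlcToH_mem_sha₁_iff S A hp2 y).1 hx⟩, rfl⟩⟩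

end Fermat.Agent.GC.C0
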