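import Mathlib
import Fermat.Prelude.Def_GroupCohomology_ContinuousUnramified
import Fermat.Agent.GC.C0.Sha1
import Fermat.Agent.GC.C0.Dual
import Fermat.Agent.GC.E0

/-!
# GATE-C / C0 (helper59): S55 from the `Hlc`-form of Poitou–Tate Ш-duality

`PTSha p S M` is the exact statement C5 has to deliver: the level-constant Ш¹ of the Tate dual and
the level-constant Ш² of `M` are finite-dimensional of the same dimension.  `S55_of_PTSha` turns it
into the conclusion of the frozen statement S55.
-/

set_option autoImplicit false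

namespace Fermat.Agent.GC.C0

open Fermat.Agent.GC.Prof groupCohomology CategoryTheory ExtCitation Module

variable {p : ℕ} [Fact p.Prime]

/-- The `Hlc`-form of the Poitou–Tate Ш-duality (dimension form). -/
def PTSha (S : Finset Nat.Primes) (M : Rep (ZMod p) GQ) [IsDiscrete (levelS S) M]
    [IsDiscrete (levelS S) (M.dualTwist (cycloChar p))] : Prop :=
  FiniteDimensional (ZMod p) (ShaLc S (M.dualTwist (cycloChar p)) 1) ∧
    FiniteDimensional (ZMod p) (ShaLc S M 2) ∧
    finrank (ZMod p) (ShaLc S (M.dualTwist (cycloChar p)) 1) = finrank (ZMod p) (ShaLc S M 2)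

/-- S55 follows from `PTSha`. -/
theorem S55_of_PTSha (hp2 : p ≠ 2) (S : Finset Nat.Primes) (M : Rep (ZMod p) GQ)
    [IsDiscrete (levelS S) M] [IsDiscrete (levelS S) (M.dualTwist (cycloChar p))]
    (h : PTSha S M) :
    ∃ B : sha₁ S (M.dualTwist (cycloChar p)) →ₗ[ZMod p] sha₂ S M →ₗ[ZMod p] ZMod p,
      (∀ y, (∀ x, B y x = 0) → y = 0) ∧ (∀ x, (∀ y, B y x = 0) → x = 0) := by
  obtain ⟨h1, h2, h3⟩ := h
  let e1 := sha₁Equiv S (M.dualTwist (cycloChar p)) hp2
  let e2 := sha₂Equiv S M hp2
  have f1 : FiniteDimensional (ZMod p) (sha₁ S (M.dualTwist (cycloChar p))) :=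
    LinearEquiv.finiteDimensional e1
  have f2 : FiniteDimensional (ZMod p) (sha₂ S M) := LinearEquiv.finiteDimensional e2.symm
  have hrank : finrank (ZMod p) (sha₁ S (M.dualTwist (cycloChar p)))
      = finrank (ZMod p) (sha₂ S M) := by
    rw [← e1.finrank_eq, h3, e2.finrank_eq]
  exact Fermat.Agent.GC.E0.exists_nondegenerate_pairing_of_finrank_eq hrank

end Fermat.Agent.GC.C0
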