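import Mathlib
import Fermat.Agent.GC.C0.Sha2
import Fermat.Agent.GC.Prof.ConeLC

/-!
# GATE-C / C0 (helper59): the `LocalData` of S55

`localDataS S : LocalData (levelS S)` is the finite family of the local Galois groups
`G_{ℚ_q}`, `q ∈ S` (finite places only), with level systems `levelOf (primeLocalToGlobal q)` and the
localisation homomorphisms `primeLocalToGlobal q`.  With it helper10's total localisation
`Cone.locRes (localDataS S) M n` is `locHlc S M n`, hence
`ShaLc S M n = ker (Cone.locRes (localDataS S) M n)` — the dictionary between the abstract C5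
statement (any `L : LocalData 𝒰`) and the target `PTSha S M` of `GC/C0/Final.lean`.
-/

set_option autoImplicit false

namespace Fermat.Agent.GC.C0

open Fermat.Agent.GC.Prof Fermat.Agent.GC.Prof.Cone groupCohomology CategoryTheory ExtCitation

/-- The local data of S55: the groups `G_{ℚ_q}`, `q ∈ S`. -/
noncomputable def localDataS (S : Finset Nat.Primes) : LocalData (levelS S) where
  ι := ↥S
  Gv q := primeLocalGaloisGroup q.1
  𝒰v q := levelOf (primeLocalToGlobal q.1)
  r q := primeLocalToGlobal q.1
  cont q := isContHom_levelOf (primeLocalToGlobal q.1) S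

instance (S : Finset Nat.Primes) : Finite (localDataS S).ι :=
  inferInstanceAs (Finite ↥S)

noncomputable instance (S : Finset Nat.Primes) : Fintype (localDataS S).ι :=
  inferInstanceAs (Fintype ↥S)

theorem nonempty_localDataS {S : Finset Nat.Primes} {q : Nat.Primes} (hq : q ∈ S) :
    Nonempty (localDataS S).ι := ⟨⟨q, hq⟩⟩

variable (S : Finset Nat.Primes) {k : Type} [CommRing k] (M : Rep k GQ) [IsDiscrete (levelS S) M]

theorem locRes_localDataS (n : ℕ) : locRes (localDataS S) M n = locHlc S M n := by
  apply LinearMap.ext
  intro x
  funext q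
  rfl

theorem ShaLc_eq_ker_locRes (n : ℕ) :
    ShaLc S M n = LinearMap.ker (locRes (localDataS S) M n) := by
  rw [locRes_localDataS]
  rfl

end Fermat.Agent.GC.C0
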