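import Mathlib
import Fermat.Agent.GC.C0.Final
import Fermat.Agent.GC.PT.Main
import Fermat.Agent.GC.PT.LocDataQ

/-!
# GATE-C / C0 (helper59): `PTSha S M` from the C5 main theorem

`PTSha_of_base` : helper74's `ConePairingData.sha_duality` (GC/PT/Main.lean) instantiated at
`G = G_ℚ`, `𝒰 = levelS S`, `L = locDataQ S` (helper19, the local groups `G_{ℚ_q}`, `q ∈ S`, with all
open subgroups as levels), `χ = cycloChar p`, combined with `ShaLc_eq_ker_locRes`, gives the target
`PTSha S M` of `GC/C0/Final.lean` — hence S55 — from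
* a `ConePairingData (locDataQ S) (cycloChar p)` (cup/trace pairing on the cone: C1 + TRACE-EXT +
  reciprocity over `ℚ`), and
* `BASE`: the duality property `D.Pr` for the permutation modules `coind_H^G(1)`, `H` open in
  `(G_ℚ, levelS S)` with `χ|_H = 1`.
-/

set_option autoImplicit false

namespace Fermat.Agent.GC.C0

open Fermat.Agent.GC.Prof Fermat.Agent.GC.Prof.Cone Fermat.Agent.GC.PT
  Fermat.Agent.GC.PT.LocDataQ groupCohomology CategoryTheory ExtCitation Module

variable {p : ℕ} [Fact p.Prime]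

/-- The mod `p` cyclotomic character is trivial on a member of `levelS S` when `p ∈ S`. -/
theorem exists_levelS_cycloChar_eq_one (S : Finset Nat.Primes) (hpS : pPrime p ∈ S) :
    ∃ U ∈ (levelS S).sets, ∀ g ∈ U, cycloChar p g = 1 := by
  refine ⟨(cycloChar p).ker, ?_, fun g hg => (MonoidHom.mem_ker).1 hg⟩
  apply mem_levelS_of_isOpen_of_inertia_le
  · obtain ⟨L, hL, h⟩ := cycloChar_finiteLevel (p := p)
    have hopen : IsOpen (L.fixingSubgroup : Set GQ) :=
      (InfiniteGalois.isOpen_iff_finite L).2 hL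
    exact Subgroup.isOpen_mono (H₁ := L.fixingSubgroup) (H₂ := (cycloChar p).ker)
      (fun σ hσ => (MonoidHom.mem_ker).2 (h σ hσ)) hopen
  · intro q hq A hA σ hσ
    have hne : (q : ℕ) ≠ p := by
      rintro h
      apply hq
      have : q = pPrime p := Subtype.ext h
      rw [this]
      exact hpS
    exact (MonoidHom.mem_ker).2 (cycloChar_inertia q.2 hne hA hσ)

/-- **`PTSha` from BASE.**  The C5 main theorem at `L = locDataQ S`, `χ = cycloChar p`. -/
theorem PTSha_of_base (S : Finset Nat.Primes) (hpS : pPrime p ∈ S)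
    (D : ConePairingData (locDataQ S) (cycloChar p))
    (base : ∀ (H : Subgroup GQ), (∃ V ∈ (levelS S).sets, V ≤ H) → (∀ g ∈ H, cycloChar p g = 1) →
      D.Pr (Rep.coind H.subtype (Rep.trivial (ZMod p) H (ZMod p))))
    (M : Rep (ZMod p) GQ) [FiniteDimensional (ZMod p) M] [IsDiscrete (levelS S) M]
    [IsDiscrete (levelS S) (M.dualTwist (cycloChar p))] : PTSha S M := by
  haveI : Nonempty (locDataQ S).ι := nonempty_locDataQ S ⟨_, hpS⟩
  haveI : Finite (locDataQ S).ι := Finite.of_fintype _
  obtain ⟨h2, h1, h⟩ := D.sha_duality (exists_levelS_cycloChar_eq_one S hpS) p base M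
  unfold PTSha
  rw [ShaLc_eq_ker_locRes S (M.dualTwist (cycloChar p)) 1, ShaLc_eq_ker_locRes S M 2]
  exact ⟨h1, h2, h.symm⟩

end Fermat.Agent.GC.C0
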