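import Mathlib
import Fermat.Agent.GC.C0.PTShaOfBase
import Fermat.Agent.GC.PT.BaseFinal
import Fermat.Agent.GC.PT.MainInst
import Fermat.Agent.GC.PT.TraceOfNC
import Fermat.Agent.GC.PT.C5Final
import Fermat.Agent.GC.PT.ConePairingFacts

/-!
# GATE-C / C0 (helper59): FINAL WIRING of S55 (hypothesis form)

`PTSha_of_arith` assembles the whole C5 chain at `G = G_ℚ`, `𝒰 = levelS S`, `L = locDataQ S`,
`χ = cycloChar p`, `T = chiRep χ`:

* `(N-a)_ℚ`, `(NC)_ℚ`  ⟹  `τ` with reciprocity `(R)` and injectivity `(I)`  (`TraceOfNC`, helper3);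
* `τ`, `(R)`, `CupFacts` (E6)+(E7) ⟹ `(D, E)` with `E.lamᵢ b c = τ ((b_v ∪ c_v)_v)`
  (`MainInst.exists_data`, helper74, on top of `TraceExt`);
* `inputs` : for every such `(τ, D, E)` the `BaseInputs E (coind_H 1)` for all open `H` with
  `χ|_H = 1` (BASE-INST) ⟹ `base` (`BaseFinal.base_of_inputs`, helper74);
* `base` ⟹ `PTSha S M` (`PTSha_of_base`) ⟹ S55 (`S55_of_PTSha`).
-/

set_option autoImplicit false

namespace Fermat.Agent.GC.C0

open Fermat.Agent.GC.Prof Fermat.Agent.GC.Prof.Cone Fermat.Agent.GC.PT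
  Fermat.Agent.GC.PT.LocDataQ Fermat.Agent.GC.PT.MainInst groupCohomology CategoryTheory
  ExtCitation Module

variable {p : ℕ} [Fact p.Prime]

/-- The coefficient module `T = k(χ)`, `χ` the mod `p` cyclotomic character. -/
noncomputable abbrev TChi (p : ℕ) [Fact p.Prime] : Rep (ZMod p) GQ := chiRep (cycloChar p)

theorem isDiscrete_TChi (S : Finset Nat.Primes) (hpS : pPrime p ∈ S) :
    IsDiscrete (levelS S) (TChi p) :=
  isDiscrete_chiRep (cycloChar p) (levelS S) (exists_levelS_cycloChar_eq_one S hpS)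

/-- The three boundary formulas `E.lamᵢ b c = τ ((b_v ∪ c_v)_v)` relating a `ConeBdryData` to a
linear form `τ` on `∏_q Hlc²(G_q, T)` (the conclusion of `MainInst.exists_data`). -/
def LamSpec (S : Finset Nat.Primes) [IsDiscrete (levelS S) (TChi p)]
    (τ : (∀ v, Hlc ((locDataQ S).𝒰v v) (Rep.res ((locDataQ S).r v) (TChi p)) 2) →ₗ[ZMod p] ZMod p)
    (D : ConePairingData (locDataQ S) (cycloChar p)) (E : ConeBdryData D) : Prop :=
  (∀ (M N : Rep (ZMod p) GQ) [IsDiscrete (levelS S) M] [IsDiscrete (levelS S) N]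
      (B : M →ₗ[ZMod p] N →ₗ[ZMod p] ZMod p)
      (hB : IsChiPairing (cycloChar p) B)
      (b : ∀ v, Hlc ((locDataQ S).𝒰v v) (Rep.res ((locDataQ S).r v) M) 0)
      (c : ∀ v, Hlc ((locDataQ S).𝒰v v) (Rep.res ((locDataQ S).r v) N) 2),
      E.lam02 M N B hB b c = τ fun v => HlcCup ((locDataQ S).𝒰v v)
        (locB (locDataQ S) (toChi (cycloChar p) B) v)
        (equivariant_locB (locDataQ S) (equivariant_toChi hB) v)
        (show 0 + 2 = 2 from rfl) (b v) (c v)) ∧
  (∀ (M N : Rep (ZMod p) GQ) [IsDiscrete (levelS S) M] [IsDiscrete (levelS S) N]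
      (B : M →ₗ[ZMod p] N →ₗ[ZMod p] ZMod p)
      (hB : IsChiPairing (cycloChar p) B)
      (b : ∀ v, Hlc ((locDataQ S).𝒰v v) (Rep.res ((locDataQ S).r v) M) 1)
      (c : ∀ v, Hlc ((locDataQ S).𝒰v v) (Rep.res ((locDataQ S).r v) N) 1),
      E.lam11 M N B hB b c = τ fun v => HlcCup ((locDataQ S).𝒰v v)
        (locB (locDataQ S) (toChi (cycloChar p) B) v)
        (equivariant_locB (locDataQ S) (equivariant_toChi hB) v)
        (show 1 + 1 = 2 from rfl) (b v) (c v)) ∧
  (∀ (M N : Rep (ZMod p) GQ) [IsDiscrete (levelS S) M] [IsDiscrete (levelS S) N]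
      (B : M →ₗ[ZMod p] N →ₗ[ZMod p] ZMod p)
      (hB : IsChiPairing (cycloChar p) B)
      (b : ∀ v, Hlc ((locDataQ S).𝒰v v) (Rep.res ((locDataQ S).r v) M) 2)
      (c : ∀ v, Hlc ((locDataQ S).𝒰v v) (Rep.res ((locDataQ S).r v) N) 0),
      E.lam20 M N B hB b c = τ fun v => HlcCup ((locDataQ S).𝒰v v)
        (locB (locDataQ S) (toChi (cycloChar p) B) v)
        (equivariant_locB (locDataQ S) (equivariant_toChi hB) v)
        (show 2 + 0 = 2 from rfl) (b v) (c v))

/-- **FINAL WIRING (hypothesis form).**  `PTSha S M` from the arithmetic inputs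
`(N-a)_ℚ`, `(NC)_ℚ`, the cochain-level `CupFacts`, and the `BaseInputs` of every open `H` with
`χ|_H = 1` (for every trace datum `(τ, D, E)` with `(R)`, `(I)` and the boundary formulas). -/
theorem PTSha_of_arith (S : Finset Nat.Primes) (hpS : pPrime p ∈ S)
    [IsDiscrete (levelS S) (TChi p)]
    (F : ∀ (tr : (coneC (locDataQ S) (TChi p)).X 3 →ₗ[ZMod p] ZMod p)
      (htr : ∀ e : (coneC (locDataQ S) (TChi p)).X 2,
        tr (((coneC (locDataQ S) (TChi p)).d 2 3).hom e) = 0),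
      CupFacts (locDataQ S) (cycloChar p) htr)
    [FiniteDimensional (ZMod p)
      (∀ v, Hlc ((locDataQ S).𝒰v v) (Rep.res ((locDataQ S).r v) (TChi p)) 2)]
    (hNa : finrank (ZMod p)
        (∀ v, Hlc ((locDataQ S).𝒰v v) (Rep.res ((locDataQ S).r v) (TChi p)) 2) ≤
      finrank (ZMod p) (LinearMap.range (locRes (locDataQ S) (TChi p) 2)) + 1)
    (hNC : ∀ (v : (locDataQ S).ι)
      (y : Hlc ((locDataQ S).𝒰v v) (Rep.res ((locDataQ S).r v) (TChi p)) 2)
      (x : Hlc (levelS S) (TChi p) 2),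
      locRes (locDataQ S) (TChi p) 2 x = Pi.single v y → y = 0)
    (inputs : ∀ (τ : (∀ v, Hlc ((locDataQ S).𝒰v v) (Rep.res ((locDataQ S).r v) (TChi p)) 2)
          →ₗ[ZMod p] ZMod p),
      (∀ x : Hlc (levelS S) (TChi p) 2, τ (locRes (locDataQ S) (TChi p) 2 x) = 0) →
      (∀ v, Function.Injective fun y :
        Hlc ((locDataQ S).𝒰v v) (Rep.res ((locDataQ S).r v) (TChi p)) 2 => τ (Pi.single v y)) →
      ∀ (D : ConePairingData (locDataQ S) (cycloChar p)) (E : ConeBdryData D),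
        LamSpec S τ D E →
        ∀ (H : Subgroup GQ), IsOpenSub (levelS S) H → (∀ g ∈ H, cycloChar p g = 1) →
          ∀ [IsDiscrete (levelS S) (Rep.coind H.subtype (Rep.trivial (ZMod p) H (ZMod p)))],
            BaseInputs E (Rep.coind H.subtype (Rep.trivial (ZMod p) H (ZMod p))))
    (M : Rep (ZMod p) GQ) [FiniteDimensional (ZMod p) M] [IsDiscrete (levelS S) M]
    [IsDiscrete (levelS S) (M.dualTwist (cycloChar p))] : PTSha S M := by
  haveI : Nonempty (locDataQ S).ι := nonempty_locDataQ S ⟨_, hpS⟩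
  haveI : Finite (locDataQ S).ι := Finite.of_fintype _
  -- the trace functional
  have hQ : finrank (ZMod p)
      ((∀ v, Hlc ((locDataQ S).𝒰v v) (Rep.res ((locDataQ S).r v) (TChi p)) 2) ⧸
        LinearMap.range (locRes (locDataQ S) (TChi p) 2)) ≤ 1 := by
    have := Submodule.finrank_quotient_add_finrank
      (LinearMap.range (locRes (locDataQ S) (TChi p) 2))
    omega
  obtain ⟨τ, hR, hI⟩ := TraceOfNC.exists_tau_of_nc_finrank
    (locRes (locDataQ S) (TChi p) 2) hQ hNC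
  -- the cone pairing data
  obtain ⟨D, E, h02, h11, h20⟩ := exists_data (L := locDataQ S) (χ := cycloChar p) τ hR F
  -- BASE
  have base := E.base_of_inputs (exists_levelS_cycloChar_eq_one S hpS)
    (inputs τ hR hI D E ⟨h02, h11, h20⟩)
  exact PTSha_of_base S hpS D base M

/-- `LamSpec` is `MainInst.LamFormulas` (helper74) at `L = locDataQ S`, `χ = cycloChar p`. -/
theorem lamSpec_iff_lamFormulas (S : Finset Nat.Primes) [IsDiscrete (levelS S) (TChi p)]
    (τ : (∀ v, Hlc ((locDataQ S).𝒰v v) (Rep.res ((locDataQ S).r v) (TChi p)) 2) →ₗ[ZMod p] ZMod p)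
    (D : ConePairingData (locDataQ S) (cycloChar p)) (E : ConeBdryData D) :
    LamSpec S τ D E ↔ LamFormulas τ E := Iff.rfl

/-- **FINAL WIRING, (F) discharged** (helper1 `ConePairing.cupFacts` = (E6)+(E7)).  The remaining
inputs are exactly `(N-a)_ℚ`, `(NC)_ℚ` and BASE-INST (`inputs`, in helper74's `LamFormulas`
shape = the conclusion of helper19's `inputs_of_K`, with `(R)` and `(I)` available for `τ`). -/
theorem PTSha_of_arith_final (S : Finset Nat.Primes) (hpS : pPrime p ∈ S)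
    [IsDiscrete (levelS S) (TChi p)]
    [FiniteDimensional (ZMod p)
      (∀ v, Hlc ((locDataQ S).𝒰v v) (Rep.res ((locDataQ S).r v) (TChi p)) 2)]
    (hNa : finrank (ZMod p)
        (∀ v, Hlc ((locDataQ S).𝒰v v) (Rep.res ((locDataQ S).r v) (TChi p)) 2) ≤
      finrank (ZMod p) (LinearMap.range (locRes (locDataQ S) (TChi p) 2)) + 1)
    (hNC : ∀ (v : (locDataQ S).ι)
      (y : Hlc ((locDataQ S).𝒰v v) (Rep.res ((locDataQ S).r v) (TChi p)) 2)
      (x : Hlc (levelS S) (TChi p) 2),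
      locRes (locDataQ S) (TChi p) 2 x = Pi.single v y → y = 0)
    (inputs : ∀ (τ : (∀ v, Hlc ((locDataQ S).𝒰v v) (Rep.res ((locDataQ S).r v) (TChi p)) 2)
          →ₗ[ZMod p] ZMod p),
      (∀ x : Hlc (levelS S) (TChi p) 2, τ (locRes (locDataQ S) (TChi p) 2 x) = 0) →
      (∀ v, Function.Injective fun y :
        Hlc ((locDataQ S).𝒰v v) (Rep.res ((locDataQ S).r v) (TChi p)) 2 => τ (Pi.single v y)) →
      ∀ (D : ConePairingData (locDataQ S) (cycloChar p)) (E : ConeBdryData D),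
        LamFormulas τ E →
        ∀ (H : Subgroup GQ), IsOpenSub (levelS S) H → (∀ g ∈ H, cycloChar p g = 1) →
          ∀ [IsDiscrete (levelS S) (Rep.coind H.subtype (Rep.trivial (ZMod p) H (ZMod p)))],
            BaseInputs E (Rep.coind H.subtype (Rep.trivial (ZMod p) H (ZMod p))))
    (M : Rep (ZMod p) GQ) [FiniteDimensional (ZMod p) M] [IsDiscrete (levelS S) M]
    [IsDiscrete (levelS S) (M.dualTwist (cycloChar p))] : PTSha S M :=
  PTSha_of_arith S hpS
    (fun _ htr => Fermat.Agent.GC.PT.ConePairing.cupFacts (locDataQ S) (cycloChar p) htr)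
    hNa hNC (fun τ hR hI D E hE => inputs τ hR hI D E hE) M

end Fermat.Agent.GC.C0
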