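/-
GATE-C / C0 + C5 (helper19): the final wiring of S55 with BASE-INST plugged in.

`PTSha_of_inputsK` = helper59's `PTSha_of_arith_final` with its argument `inputs` discharged by
`BaseInputsQ.inputs_of_K`: the remaining inputs of GATE-C are `(N-a)_ℚ`, `(NC)_ℚ` and, for every
trace functional `τ` with reciprocity `(R)` and injectivity `(I)`, the `K`-language inputs
`BaseInputsK` at every finite `K ⊆ ℚ_S` with `χ|_{G_K} = 1`.
-/
import Mathlib
import Fermat.Agent.GC.C0.S55Final
import Fermat.Agent.GC.PT.BaseInputsQ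

set_option autoImplicit false

namespace Fermat.Agent.GC.C0

open Fermat.Agent.GC.Prof Fermat.Agent.GC.Prof.Cone Fermat.Agent.GC.PT
  Fermat.Agent.GC.PT.LocDataQ Fermat.Agent.GC.PT.MainInst groupCohomology CategoryTheory
  ExtCitation Module

variable {p : ℕ} [Fact p.Prime]

/-- **S55 chain, `K`-language form.** -/
theorem PTSha_of_inputsK (S : Finset Nat.Primes) (hpS : pPrime p ∈ S)
    [IsDiscrete (levelS S) (TChi p)]
    [FiniteDimensional (ZMod p)
      (∀ v, Hlc ((locDataQ S).𝒰v v) (Rep.res ((locDataQ S).r v) (TChi p)) 2)]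
    (hNa : finrank (ZMod p)
        (∀ v, Hlc ((locDataQ S).𝒰v v) (Rep.res ((locDataQ S).r v) (TChi p)) 2) ≤
      finrank (ZMod p) (LinearMap.range (locRes (locDataQ S) (TChi p) 2)) + 1)
    (hNC : ∀ (v : (locDataQ S).ι)
      (y : Hlc ((locDataQ S).𝒰v v) (Rep.res ((locDataQ S).r v) (TChi p)) 2)
      (x : Hlc (levelS S) (TChi p) 2),
      locRes (locDataQ S) (TChi p) 2 x = Pi.single v y → y = 0)
    (IK : ∀ (τ : (∀ v, Hlc ((locDataQ S).𝒰v v) (Rep.res ((locDataQ S).r v) (TChi p)) 2)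
          →ₗ[ZMod p] ZMod p),
      (∀ x : Hlc (levelS S) (TChi p) 2, τ (locRes (locDataQ S) (TChi p) 2 x) = 0) →
      (∀ v, Function.Injective fun y :
        Hlc ((locDataQ S).𝒰v v) (Rep.res ((locDataQ S).r v) (TChi p)) 2 => τ (Pi.single v y)) →
      BaseInputsQ.InputsK S (cycloChar p) τ)
    (M : Rep (ZMod p) GQ) [FiniteDimensional (ZMod p) M] [IsDiscrete (levelS S) M]
    [IsDiscrete (levelS S) (M.dualTwist (cycloChar p))] : PTSha S M := by
  haveI : Nonempty (locDataQ S).ι := nonempty_locDataQ S ⟨_, hpS⟩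
  exact PTSha_of_arith_final S hpS hNa hNC
    (fun τ hR hI D E hE H hH hχH _ =>
      BaseInputsQ.inputs_of_K S (cycloChar p) τ (IK τ hR hI) D E hE H hH hχH) M

end Fermat.Agent.GC.C0
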