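import Mathlib
import Fermat.Agent.GC.C0.S55InputsK
import Fermat.Agent.GC.C0.ZetaMem
import Fermat.Agent.GC.PT.DualKInst
import Fermat.Agent.GC.Places.NaCoeffQ
import Fermat.Agent.GC.Places.LocalNumLam

/-!
# GATE-C / C0 (helper59): the FINAL GLUE of S55

`PTSha_of_kummerK` : `PTSha S M` (hence S55, `S55_of_kummerK`) from exactly TWO inputs:

* `(NC)_ℚ` (helper83 / helper52 / helper3), in the `hNC` shape of `PTSha_of_arith`;
* for every finite `K ⊂ ℚ_S` with `χ_cyc|_{G_K} = 1` the KUMMER package `KummerK S K`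
  (`fin1 fin2 h3 cokK c1K` = the GLOBAL fields of helper19's `BaseInputsK`; helper77
  KummerBridgeInst).

Everything else is plugged in: `(F)` helper1, `Λ` finite-dimensional helper41, `(N-a)_ℚ ⟸ cokK`
helper69 (`NaCoeffQ`), `τ` from `(NC)` helper3 (`TraceOfNC`), local fields of `BaseInputsK`
helper61 (`DualKInst`), `BaseInputs` helper19 (`BaseInputsQ`), C5 helper74.
-/

set_option autoImplicit false

open CategoryTheory Module

namespace Fermat.Agent.GC.C0

open Fermat.Agent.GC.Prof Fermat.Agent.GC.Prof.Cone Fermat.Agent.GC.PT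
  Fermat.Agent.GC.PT.LocDataQ Fermat.Agent.GC.PT.MainInst Fermat.Agent.GC.PT.BaseInstQ
  Fermat.Agent.GC.PT.BaseInputsQ Fermat.Agent.GC.Places ExtCitation groupCohomology

local notation "Qb" => AlgebraicClosure ℚ

attribute [local instance] Fermat.Agent.GC.Places.fact_prime

variable {p : ℕ} [Fact p.Prime]

/-- **The KUMMER package of one field** `K ⊂ ℚ_S` (finite, `ζ_p ∈ K`): the five GLOBAL fields of
helper19's `BaseInputsK`, coefficients `𝔽_p` with trivial action.
`fin1`, `fin2` : finiteness of `Hlcⁱ(G_{K,S}, 𝔽_p)`, `i = 1, 2`;  `h3` : `(N-b)`, `Hlc³ = 0`;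
`cokK` : `(N-a)_K`, the cokernel of `loc²` has dimension `≤ 1`;
`c1K` : `(C1)_K`, `∑_w h¹_w + 2·dim Ш² ≤ 2·h¹`. -/
structure KummerK (S : Finset Nat.Primes) (K : IntermediateField ℚ Qb) [FiniteDimensional ℚ K]
    [hI : InstDisc S K (trivK (ZMod p) K)] : Prop where
  fin1 : haveI := hI.dA; FiniteDimensional (ZMod p) (Hlc (levelK S K) (trivK (ZMod p) K) 1)
  fin2 : haveI := hI.dA; FiniteDimensional (ZMod p) (Hlc (levelK S K) (trivK (ZMod p) K) 2)
  h3 : haveI := hI.dA; Limits.IsZero (Hlc (levelK S K) (trivK (ZMod p) K) 3)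
  cokK : finrank (ZMod p) (LocKw S K (trivK (ZMod p) K) 2) ≤
    finrank (ZMod p) (LinearMap.range (locK S K (trivK (ZMod p) K) 2)) + 1
  c1K : haveI := hI.dA; finrank (ZMod p) (LocKw S K (trivK (ZMod p) K) 1) +
      2 * finrank (ZMod p) (LinearMap.ker (locK S K (trivK (ZMod p) K) 2)) ≤
    2 * finrank (ZMod p) (Hlc (levelK S K) (trivK (ZMod p) K) 1)

/-- **FINAL GLUE.**  `PTSha S M` from `(NC)_ℚ` and the KUMMER packages. -/
theorem PTSha_of_kummerK (S : Finset Nat.Primes) (hpS : pPrime p ∈ S)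
    [IsDiscrete (levelS S) (TChi p)]
    (hNC : ∀ (v : (locDataQ S).ι)
      (y : Hlc ((locDataQ S).𝒰v v) (Rep.res ((locDataQ S).r v) (TChi p)) 2)
      (x : Hlc (levelS S) (TChi p) 2),
      locRes (locDataQ S) (TChi p) 2 x = Pi.single v y → y = 0)
    (hKum : ∀ (K : IntermediateField ℚ Qb) [FiniteDimensional ℚ K],
      K.IsUnramifiedOutside S → (∀ g ∈ K.fixingSubgroup, cycloChar p g = 1) →
      ∀ [InstDisc S K (trivK (ZMod p) K)], KummerK (p := p) S K)
    (M : Rep (ZMod p) GQ) [FiniteDimensional (ZMod p) M] [IsDiscrete (levelS S) M]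
    [IsDiscrete (levelS S) (M.dualTwist (cycloChar p))] : PTSha S M := by
  haveI hΛ : FiniteDimensional (ZMod p)
      (∀ v, Hlc ((locDataQ S).𝒰v v) (Rep.res ((locDataQ S).r v) (TChi p)) 2) :=
    LocalNum.finiteDimensional_Lam S p 2 le_rfl
  -- a primitive `p`-th root of unity of `ℚ̄`
  obtain ⟨ζ, hζ⟩ := HasEnoughRootsOfUnity.exists_primitiveRoot Qb p
  refine PTSha_of_inputsK S hpS ?_ hNC ?_ M
  · -- (N-a)_ℚ from cokK (helper69)
    refine finrank_le_range_locRes_chiRep_of_cokK S hpS 2 ?_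
    intro K _ hK hχ hI
    have hζK : ζ ∈ K := primitiveRoot_mem_of_cycloChar_eq_one K hχ hζ
    refine ⟨?_, (hKum K hK hχ).cokK⟩
    have : ∀ (q : ↥S) (w : placeIdx ((q : Nat.Primes) : ℕ) K),
        FiniteDimensional (ZMod p) (HlcKw S K (trivK (ZMod p) K) q w 2) :=
      fun q w => DualKInst.finLoc_of S K p hζ hζK q w 2 le_rfl
    exact finiteDimensional_LocKw S K (trivK (ZMod p) K) 2
  · -- BASE-INST from the KUMMER packages (helper61 + helper19)
    intro τ _ hI K _ hInst hChi hK hχK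
    have hχ : ∀ g ∈ K.fixingSubgroup, cycloChar p g = 1 := fun g hg => hχK ⟨g, hg⟩
    have hζK : ζ ∈ K := primitiveRoot_mem_of_cycloChar_eq_one K hχ hζ
    have hk := hKum K hK hχ
    exact DualKInst.baseInputsK_of_global S K p hχK hζ hζK τ hI hk.fin1 hk.fin2 hk.h3 hk.cokK
      hk.c1K

/-- **S55 from `(NC)_ℚ` and the KUMMER packages**, in the shape of the frozen statement's
conclusion. -/
theorem S55_of_kummerK (hp2 : p ≠ 2) (S : Finset Nat.Primes) (hpS : pPrime p ∈ S)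
    [IsDiscrete (levelS S) (TChi p)]
    (hNC : ∀ (v : (locDataQ S).ι)
      (y : Hlc ((locDataQ S).𝒰v v) (Rep.res ((locDataQ S).r v) (TChi p)) 2)
      (x : Hlc (levelS S) (TChi p) 2),
      locRes (locDataQ S) (TChi p) 2 x = Pi.single v y → y = 0)
    (hKum : ∀ (K : IntermediateField ℚ Qb) [FiniteDimensional ℚ K],
      K.IsUnramifiedOutside S → (∀ g ∈ K.fixingSubgroup, cycloChar p g = 1) →
      ∀ [InstDisc S K (trivK (ZMod p) K)], KummerK (p := p) S K)
    (M : Rep (ZMod p) GQ) [FiniteDimensional (ZMod p) M] [IsDiscrete (levelS S) M]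
    [IsDiscrete (levelS S) (M.dualTwist (cycloChar p))] :
    ∃ B : sha₁ S (M.dualTwist (cycloChar p)) →ₗ[ZMod p] sha₂ S M →ₗ[ZMod p] ZMod p,
      (∀ y, (∀ x, B y x = 0) → y = 0) ∧ (∀ x, (∀ y, B y x = 0) → x = 0) :=
  S55_of_PTSha hp2 S M (PTSha_of_kummerK S hpS hNC hKum M)

end Fermat.Agent.GC.C0
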